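import Mathlib

/-!
# Lifting a representation of a group of invertible order

Over a ring complete for a principal ideal, averaging improves an approximate homomorphism to
matrices, and the limit is a homomorphism.
-/

set_option autoImplicit false

noncomputable section

open Matrix

namespace Fermat.DS

variable {R : Type*} [CommRing R] (π : R)

local notation "M2R" => Matrix (Fin 2) (Fin 2) R

/-- Every entry is divisible by `π ^ n`. -/
def Dv (n : ℕ) (X : M2R) : Prop := ∀ i j, π ^ n ∣ X i j

variable {π}

variable {n m : ℕ} {X Y : Matrix (Fin 2) (Fin 2) R}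

/-- Divisibility of entries passes to sums. -/
theorem Dv.add (hX : Dv π n X) (hY : Dv π n Y) : Dv π n (X + Y) :=
  fun i j => dvd_add (hX i j) (hY i j)

/-- Divisibility of entries passes to differences. -/
theorem Dv.sub (hX : Dv π n X) (hY : Dv π n Y) : Dv π n (X - Y) :=
  fun i j => dvd_sub (hX i j) (hY i j)

/-- Exponents add in products. -/
theorem Dv.mul (hX : Dv π n X) (hY : Dv π m Y) : Dv π (n + m) (X * Y) := fun i j => by
  rw [Matrix.mul_apply, pow_add]
  exact Finset.dvd_sum fun x _ => mul_dvd_mul (hX i x) (hY x j)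

/-- Every matrix is divisible by `π ^ 0`. -/
theorem Dv.zero_left (X : M2R) : Dv π 0 X := fun i j => by rw [pow_zero]; exact one_dvd _

/-- Divisibility passes to smaller exponents. -/
theorem Dv.mono (h : m ≤ n) (hX : Dv π n X) : Dv π m X :=
  fun i j => (pow_dvd_pow π h).trans (hX i j)

/-- Divisibility passes to right multiples. -/
theorem Dv.mul_right (hX : Dv π n X) (Y : M2R) : Dv π n (X * Y) := by
  simpa using hX.mul (Dv.zero_left (π := π) Y)

/-- Divisibility passes to left multiples. -/
theorem Dv.mul_left (Y : M2R) (hX : Dv π n X) : Dv π n (Y * X) := by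
  simpa using (Dv.zero_left (π := π) Y).mul hX

/-- Divisibility passes to scalar multiples. -/
theorem Dv.smul (c : R) (hX : Dv π n X) : Dv π n (c • X) :=
  fun i j => (hX i j).mul_left c

/-- Divisibility passes to finite sums. -/
theorem Dv.sum {ι : Type*} (s : Finset ι) {F : ι → M2R} (h : ∀ i ∈ s, Dv π n (F i)) :
    Dv π n (∑ i ∈ s, F i) := fun i j => by
  rw [Matrix.sum_apply]
  exact Finset.dvd_sum fun x hx => h x hx i j

variable {Γ : Type*} [Group Γ] [Fintype Γ]

/-- **One step:** a map multiplicative mod `π ^ n` is corrected to one multiplicative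
mod `π ^ (n + 1)`. -/
theorem exists_improve {ν : R} (hν : ν * (Fintype.card Γ : R) = 1) (f : Γ → M2R) (hn : 1 ≤ n)
    (hu : ∀ g, IsUnit (f g).det) (hf : ∀ a b, Dv π n (f (a * b) - f a * f b)) :
    ∃ f' : Γ → M2R, (∀ g, Dv π n (f' g - f g)) ∧
      ∀ a b, Dv π (n + 1) (f' (a * b) - f' a * f' b) := by
  classical
  -- the error cocycle `e g h = f (g h) (f h)⁻¹ - f g`
  set e : Γ → Γ → M2R := fun g h => f (g * h) * (f h)⁻¹ - f g with he
  have hinv : ∀ g, (f g)⁻¹ * f g = 1 := fun g => Matrix.nonsing_inv_mul _ (hu g)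
  have hinv' : ∀ g, f g * (f g)⁻¹ = 1 := fun g => Matrix.mul_nonsing_inv _ (hu g)
  have hdef : ∀ g h, (f g + e g h) * f h = f (g * h) := fun g h => by
    simp only [he, add_sub_cancel, mul_assoc, hinv, mul_one]
  have hed : ∀ g h, Dv π n (e g h) := fun g h => by
    have : e g h = (f (g * h) - f g * f h) * (f h)⁻¹ := by
      simp only [he, sub_mul, mul_assoc, hinv', mul_one]
    rw [this]
    exact (hf g h).mul_right _
  have hexact : ∀ a b c, f a * e b c + e a (b * c) * f b + e a (b * c) * e b c =
      e a b * f b + e (a * b) c := by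
    intro a b c
    have h1 : (f a + e a (b * c)) * (f b + e b c) * f c = f (a * b * c) := by
      rw [mul_assoc, hdef b c, hdef, mul_assoc]
    have h2 : ((f a + e a b) * f b + e (a * b) c) * f c = f (a * b * c) := by
      rw [hdef a b, hdef]
    have h3 := congrArg (· * (f c)⁻¹) (h1.trans h2.symm)
    simp only [mul_assoc, hinv', mul_one] at h3
    rw [add_mul, add_mul, mul_add, mul_add] at h3
    calc f a * e b c + e a (b * c) * f b + e a (b * c) * e b c
        = (f a * f b + f a * e b c + (e a (b * c) * f b + e a (b * c) * e b c)) - f a * f b := by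
          abel
      _ = (f a * f b + e a b * f b + e (a * b) c) - f a * f b := by rw [h3]
      _ = _ := by abel
  -- averaging it corrects `f` modulo the next power
  set E : Γ → M2R := fun g => ν • ∑ h, e g h with hE
  have hEd : ∀ g, Dv π n (E g) := fun g => (Dv.sum _ fun h _ => hed g h).smul ν
  refine ⟨fun g => f g + E g, fun g => by simpa using hEd g, fun a b => ?_⟩
  have hconst : ∀ X : M2R, ν • ∑ _c : Γ, X = X := fun X => by
    rw [Finset.sum_const, Finset.card_univ, ← Nat.cast_smul_eq_nsmul R, smul_smul, hν, one_smul]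
  have havg : f a * E b + E a * f b + ν • ∑ c, e a (b * c) * e b c = e a b * f b + E (a * b) := by
    have h := congrArg (fun F : Γ → M2R => ν • ∑ c, F c) (funext (hexact a b))
    simp only [Finset.sum_add_distrib, smul_add, ← Finset.mul_sum, ← Finset.sum_mul] at h
    rw [Fintype.sum_equiv (Equiv.mulLeft b) (fun c => e a (b * c)) (fun c => e a c)
      fun _ => rfl] at h
    rw [← mul_smul_comm ν (e a b), hconst] at h
    simpa only [hE, mul_smul_comm, smul_mul_assoc] using h
  have hab : f (a * b) = f a * f b + e a b * f b := by rw [← hdef a b, add_mul]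
  have key : f (a * b) + E (a * b) - (f a + E a) * (f b + E b) =
      (ν • ∑ c, e a (b * c) * e b c) - E a * E b := by
    rw [hab, eq_sub_of_add_eq' havg.symm]
    simp only [add_mul, mul_add]
    abel
  rw [key]
  refine Dv.mono (show n + 1 ≤ n + n by omega)
    (((Dv.sum _ fun c _ => (hed a (b * c)).mul (hed b c)).smul ν).sub ((hEd a).mul (hEd b)))

variable [IsAdicComplete (Ideal.span {π}) R] {k : Type*} [Field k] (c : R →+* k)

/-- **The lifting:** a representation of a finite group of order prime to the residue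
characteristic lifts. -/
theorem exists_lift_hom (hc : Function.Surjective c) (hker : RingHom.ker c = Ideal.span {π})
    (hloc : IsLocalHom c) (hcard : (Fintype.card Γ : k) ≠ 0)
    (ρ : Γ →* Matrix (Fin 2) (Fin 2) k) (hρ : ∀ g, (ρ g).det ≠ 0) :
    ∃ θ : Γ →* M2R, ∀ g, (θ g).map c = ρ g := by
  classical
  obtain ⟨ν, hν⟩ : ∃ ν : R, ν * (Fintype.card Γ : R) = 1 := by
    obtain ⟨u, hu⟩ := (hloc.map_nonunit (Fintype.card Γ : R) (by
      rw [map_natCast]; exact isUnit_iff_ne_zero.mpr hcard))
    exact ⟨↑u⁻¹, by rw [← hu, Units.inv_mul]⟩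
  -- start from any lift of the matrices
  choose s hs using hc
  let P : ℕ → (Γ → M2R) → Prop := fun n f =>
    (∀ g, (f g).map c = ρ g) ∧ ∀ a b, Dv π (n + 1) (f (a * b) - f a * f b)
  have hdvd : ∀ {x : R}, c x = 0 ↔ π ∣ x := fun {x} => by
    rw [← RingHom.mem_ker, hker, Ideal.mem_span_singleton]
  have h0 : P 0 (fun g => (ρ g).map s) := by
    have hmap : ∀ g, ((ρ g).map s).map c = ρ g := fun g => by
      ext i j
      exact hs _
    refine ⟨hmap, fun a b i j => ?_⟩
    rw [zero_add, pow_one, ← hdvd, ← Matrix.map_apply (f := c)]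
    rw [Matrix.map_sub c (map_sub c), Matrix.map_mul, hmap, hmap, hmap, map_mul, sub_self]
    rfl
  -- improve it step by step
  have hstep : ∀ n f, P n f → ∃ f', P (n + 1) f' ∧ ∀ g, Dv π (n + 1) (f' g - f g) := by
    rintro n f ⟨h1, h2⟩
    have hunit : ∀ g, IsUnit (f g).det := fun g => hloc.map_nonunit _ (by
      rw [RingHom.map_det, RingHom.mapMatrix_apply, h1]
      exact isUnit_iff_ne_zero.mpr (hρ g))
    obtain ⟨f', hd, hm⟩ := exists_improve hν f (Nat.le_add_left 1 n) hunit h2
    refine ⟨f', ⟨fun g => ?_, hm⟩, hd⟩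
    rw [← h1 g]
    ext i j
    rw [Matrix.map_apply, Matrix.map_apply, ← sub_eq_zero, ← map_sub, hdvd]
    exact (dvd_pow_self π n.succ_ne_zero).trans (hd g i j)
  choose next hnext hdiff using hstep
  let F : ∀ n, {f : Γ → M2R // P n f} := fun n =>
    Nat.rec ⟨_, h0⟩ (fun n f => ⟨next n f.1 f.2, hnext n f.1 f.2⟩) n
  -- the limit of the sequence is multiplicative
  have hcauchy : ∀ g i j {m n : ℕ}, m ≤ n →
      (F m).1 g i j ≡ (F n).1 g i j [SMOD (Ideal.span {π} ^ m • ⊤ : Submodule R R)] := by
    intro g i j m n h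
    induction n, h using Nat.le_induction with
    | base => exact SModEq.refl _
    | succ n hmn ih =>
      refine ih.trans (SModEq.symm ?_)
      rw [SModEq.sub_mem, smul_eq_mul, Ideal.mul_top, Ideal.span_singleton_pow,
        Ideal.mem_span_singleton]
      exact (pow_dvd_pow π (Nat.le_succ_of_le hmn)).trans (hdiff n (F n).1 (F n).2 g i j)
  have hlim : ∀ g i j, ∃ L : R, ∀ n, (F n).1 g i j ≡
      L [SMOD (Ideal.span {π} ^ n • ⊤ : Submodule R R)] :=
    fun g i j => IsPrecomplete.prec inferInstance (fun {m n} h => hcauchy g i j h)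
  choose L hL using hlim
  let θ : Γ → M2R := fun g => Matrix.of (L g)
  have happrox : ∀ n g, Dv π n (θ g - (F n).1 g) := fun n g i j => by
    have h := (hL g i j n).symm
    rw [SModEq.sub_mem, smul_eq_mul, Ideal.mul_top, Ideal.span_singleton_pow,
      Ideal.mem_span_singleton] at h
    exact h
  have hmul : ∀ a b, θ (a * b) = θ a * θ b := fun a b => by
    ext i j
    refine sub_eq_zero.mp (IsHausdorff.haus (I := Ideal.span {π}) inferInstance _ fun n => ?_)
    rw [SModEq.zero, smul_eq_mul, Ideal.mul_top, Ideal.span_singleton_pow, Ideal.mem_span_singleton]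
    have e : θ (a * b) - θ a * θ b = (θ (a * b) - (F n).1 (a * b)) +
        ((F n).1 (a * b) - (F n).1 a * (F n).1 b) -
        ((θ a - (F n).1 a) * θ b + (F n).1 a * (θ b - (F n).1 b)) := by
      rw [sub_mul, mul_sub]; abel
    have h : Dv π n (θ (a * b) - θ a * θ b) := by
      rw [e]
      exact ((happrox n (a * b)).add (((F n).2.2 a b).mono (Nat.le_succ n))).sub
        (((happrox n a).mul_right _).add ((happrox n b).mul_left _))
    exact h i j
  have hmap : ∀ g, (θ g).map c = ρ g := fun g => by
    rw [← (F 1).2.1 g]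
    ext i j
    rw [Matrix.map_apply, Matrix.map_apply, ← sub_eq_zero, ← map_sub, hdvd]
    simpa using happrox 1 g i j
  have hone : θ 1 = 1 := by
    have hu : IsUnit (θ 1) := by
      rw [Matrix.isUnit_iff_isUnit_det]
      exact hloc.map_nonunit _ (by
        rw [RingHom.map_det, RingHom.mapMatrix_apply, hmap]
        exact isUnit_iff_ne_zero.mpr (hρ 1))
    exact hu.mul_left_cancel (by rw [← hmul, mul_one, mul_one])
  exact ⟨{ toFun := θ, map_one' := hone, map_mul' := hmul }, hmap⟩

end Fermat.DS

end
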