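import Mathlib

/-!
# Witt vectors of an algebraic closure of `𝔽_l` inside `ℂ`, and a reduction of algebraic integers

The main result is `exists_embedding_red`, the embedding with the compatible reduction.
-/

set_option autoImplicit false

noncomputable section

open Cardinal

namespace Fermat.DS

/-- A characteristic zero domain of at most continuum many elements embeds in `ℂ`. -/
theorem exists_embedding_of_mk_le (O : Type) [CommRing O] [IsDomain O] [CharZero O]
    (hO : #O ≤ 𝔠) : ∃ u : O →+* ℂ, Function.Injective u := by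
  classical
  let P := MvPolynomial ℝ O
  let Ω := AlgebraicClosure (FractionRing P)
  have : CharZero P := charZero_of_injective_algebraMap (MvPolynomial.C_injective ℝ O)
  have : CharZero (FractionRing P) := IsFractionRing.charZero_of_isFractionRing P
  have : CharZero Ω :=
    charZero_of_injective_algebraMap (algebraMap (FractionRing P) Ω).injective
  have hP : #P ≤ 𝔠 := by
    refine MvPolynomial.cardinalMk_le_max.trans ?_
    simp [hO, Cardinal.mk_real, Cardinal.aleph0_le_continuum]
  have hΩ : #Ω = 𝔠 := by
    refine le_antisymm ((Algebra.IsAlgebraic.cardinalMk_le_max (FractionRing P) Ω).trans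
      (max_le ?_ Cardinal.aleph0_le_continuum)) ?_
    · rw [FractionRing, IsFractionRing.cardinalMk P (Localization (nonZeroDivisors P))]
      exact hP
    · rw [← Cardinal.mk_real]
      refine Cardinal.mk_le_of_injective (f := fun r : ℝ => algebraMap (FractionRing P) Ω
        (algebraMap P (FractionRing P) (MvPolynomial.X r))) ?_
      exact ((algebraMap (FractionRing P) Ω).injective.comp
        (IsFractionRing.injective P (FractionRing P))).comp MvPolynomial.X_injective
  obtain ⟨e⟩ : Nonempty (Ω ≃ ℂ) := Cardinal.eq.mp (hΩ.trans Cardinal.mk_complex.symm)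
  obtain ⟨E⟩ := IsAlgClosed.ringEquiv_of_equiv_of_charZero (K := Ω) (L := ℂ)
    (hΩ ▸ Cardinal.aleph0_lt_continuum) ⟨e⟩
  exact ⟨((E : Ω →+* ℂ).comp ((algebraMap (FractionRing P) Ω).comp
    (algebraMap P (FractionRing P)))).comp (MvPolynomial.C : O →+* P),
    ((E.injective.comp ((algebraMap (FractionRing P) Ω).injective.comp
      (IsFractionRing.injective P (FractionRing P))))).comp (MvPolynomial.C_injective ℝ O)⟩

variable (l : ℕ) [hl : Fact l.Prime]

/-- The Witt vectors have characteristic zero. -/
instance charZero_witt : CharZero (WittVector l (AlgebraicClosure (ZMod l))) := by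
  rw [← CharP.ringChar_zero_iff_CharZero]
  set q := ringChar (WittVector l (AlgebraicClosure (ZMod l))) with hq
  by_contra h0
  have hqp : q.Prime :=
    (CharP.char_is_prime_or_zero (WittVector l (AlgebraicClosure (ZMod l))) q).resolve_right h0
  have h1 : ((q : ℕ) : AlgebraicClosure (ZMod l)) = 0 := by
    rw [← map_natCast (WittVector.constantCoeff : WittVector l (AlgebraicClosure (ZMod l)) →+* _),
      hq, ringChar.Nat.cast_ringChar, map_zero]
  have h2 : l = q := (Nat.prime_dvd_prime_iff_eq hl.out hqp).mp
    ((CharP.cast_eq_zero_iff (AlgebraicClosure (ZMod l)) l q).mp h1)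
  have h3 := (WittVector.irreducible l (k := AlgebraicClosure (ZMod l))).ne_zero
  exact h3 ((congrArg (fun n : ℕ => (n : WittVector l (AlgebraicClosure (ZMod l)))) h2).trans
    (by rw [hq]; exact ringChar.Nat.cast_ringChar))

/-- The Witt vectors have at most the cardinality of the continuum. -/
theorem mk_witt_le : #(WittVector l (AlgebraicClosure (ZMod l))) ≤ 𝔠 := by
  have : Countable (AlgebraicClosure (ZMod l)) := by
    rw [← Cardinal.mk_le_aleph0_iff]
    exact (Algebra.IsAlgebraic.cardinalMk_le_max (ZMod l) _).trans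
      (max_le Cardinal.mk_le_aleph0 le_rfl)
  obtain ⟨e, he⟩ := exists_injective_nat (AlgebraicClosure (ZMod l))
  refine (Cardinal.mk_le_of_injective
    (f := fun (x : WittVector l (AlgebraicClosure (ZMod l))) (n : ℕ) => e (x.coeff n)) ?_).trans
    (by simp)
  intro x y h
  exact WittVector.ext fun n => he (congrFun h n)

/-- **The embedding and the reduction**, compatible on algebraic integers. -/
theorem exists_embedding_red :
    ∃ (u : WittVector l (AlgebraicClosure (ZMod l)) →+* ℂ)
      (red : integralClosure ℤ ℂ →+* AlgebraicClosure (ZMod l)),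
      Function.Injective u ∧ ∀ (x : WittVector l (AlgebraicClosure (ZMod l)))
        (t : integralClosure ℤ ℂ), (t : ℂ) = u x → red t = WittVector.constantCoeff x := by
  classical
  let W := WittVector l (AlgebraicClosure (ZMod l))
  -- embed the Witt vectors in `ℂ`
  obtain ⟨u, hu⟩ := exists_embedding_of_mk_le W (mk_witt_le l)
  refine ⟨u, ?_⟩
  let A := integralClosure ℤ W
  let Zb := integralClosure ℤ ℂ
  let a : A →+* Zb := (u.comp A.subtype).codRestrict Zb.toSubring fun x =>
    map_isIntegral_int u x.2
  have ha : Function.Injective a := fun x y e =>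
    Subtype.ext (hu (congrArg Subtype.val e))
  -- a prime of the algebraic integers over the kernel of the reduction
  let ψ : A →+* AlgebraicClosure (ZMod l) := WittVector.constantCoeff.comp A.subtype
  let P : Ideal A := RingHom.ker ψ
  have : P.IsPrime := RingHom.ker_isPrime ψ
  let : Algebra A Zb := a.toAlgebra
  have : Algebra.IsIntegral A Zb := ⟨fun z => by
    refine IsIntegral.tower_top (R := ℤ) ?_
    exact isIntegral_algHom_iff (Zb.toSubring.subtype.toIntAlgHom) Subtype.val_injective |>.mp z.2⟩
  obtain ⟨Q, hQ, hQP⟩ := Ideal.exists_ideal_over_prime_of_isIntegral_of_isDomain (S := Zb) P (by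
    rw [show RingHom.ker (algebraMap A Zb) = ⊥ from (RingHom.injective_iff_ker_eq_bot a).mp ha]
    exact bot_le)
  have := hQ
  let : Algebra (A ⧸ P) (Zb ⧸ Q) :=
    (Ideal.quotientMap Q (algebraMap A Zb) hQP.ge).toAlgebra
  let : Algebra (A ⧸ P) (AlgebraicClosure (ZMod l)) := (RingHom.kerLift ψ).toAlgebra
  have : FaithfulSMul (A ⧸ P) (AlgebraicClosure (ZMod l)) :=
    (faithfulSMul_iff_algebraMap_injective _ _).mpr (RingHom.kerLift_injective ψ)
  have : FaithfulSMul (A ⧸ P) (Zb ⧸ Q) :=
    (faithfulSMul_iff_algebraMap_injective _ _).mpr (Ideal.quotientMap_injective' hQP.le)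
  have : Algebra.IsIntegral (A ⧸ P) (Zb ⧸ Q) := ⟨fun z => by
    obtain ⟨z, rfl⟩ := Ideal.Quotient.mk_surjective z
    have h : IsIntegral A z := Algebra.IsIntegral.isIntegral z
    obtain ⟨f, hf, hz⟩ := h
    refine ⟨f.map (Ideal.Quotient.mk P), hf.map _, ?_⟩
    rw [Polynomial.eval₂_map]
    have hcomp : (algebraMap (A ⧸ P) (Zb ⧸ Q)).comp (Ideal.Quotient.mk P) =
        (Ideal.Quotient.mk Q).comp (algebraMap A Zb) := RingHom.ext fun _ => rfl
    rw [hcomp, ← Polynomial.hom_eval₂, hz, map_zero]⟩
  -- its residue ring embeds in the algebraic closure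
  let φ : (Zb ⧸ Q) →ₐ[A ⧸ P] AlgebraicClosure (ZMod l) := IsAlgClosed.lift
  refine ⟨(φ : (Zb ⧸ Q) →+* AlgebraicClosure (ZMod l)).comp (Ideal.Quotient.mk Q), hu,
    fun x t ht => ?_⟩
  have hx : IsIntegral ℤ x := isIntegral_algHom_iff u.toIntAlgHom hu |>.mp (ht ▸ t.2)
  have e : t = algebraMap A Zb ⟨x, hx⟩ := Subtype.ext ht
  have e1 : Ideal.Quotient.mk Q t = algebraMap (A ⧸ P) (Zb ⧸ Q) (Ideal.Quotient.mk P ⟨x, hx⟩) := by
    rw [e]; rfl
  change φ (Ideal.Quotient.mk Q t) = _
  rw [e1, AlgHom.commutes]
  rfl

end Fermat.DS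

end
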