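import Fermat.Agent.DS.Defs
import Fermat.Agent.DS.Lift.Successive
import Fermat.Agent.DS.Lift.Witt
import Fermat.Agent.DS.Main.Complex

/-!
# Lifting representations of order prime to the characteristic

By successive approximation over Witt vectors embedded in `ℂ` (`DS/Lift/Successive`,
`DS/Lift/Witt`).

`liftStatement`, applied to the residual images of bounded order.
-/

set_option autoImplicit false

noncomputable section

open Matrix

namespace Fermat.DS

/-- The trace and determinant of a matrix of finite order are algebraic integers. -/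
theorem isIntegral_trace_det {U : Matrix (Fin 2) (Fin 2) ℂ} {m : ℕ} (hm : 0 < m) (hU : U ^ m = 1) :
    IsIntegral ℤ U.trace ∧ IsIntegral ℤ U.det :=
  ⟨isIntegral_of_mem_rootSums hm (trace_det_mem_rootSums hm hU).1,
    isIntegral_of_mem_rootSums hm (trace_det_mem_rootSums hm hU).2⟩

/-- **Lifting of representations of order prime to the characteristic.** -/
theorem liftStatement : LiftStatement := by
  intro l _
  obtain ⟨u, red, -, hred⟩ := exists_embedding_red l
  refine ⟨red, fun G hfin hl => ?_⟩
  have := Fintype.ofFinite G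
  have : IsLocalHom (WittVector.constantCoeff :
      WittVector l (AlgebraicClosure (ZMod l)) →+* AlgebraicClosure (ZMod l)) :=
    ⟨fun a ha => WittVector.isUnit_of_coeff_zero_ne_zero a ha.ne_zero⟩
  let ρ : G →* Matrix (Fin 2) (Fin 2) (AlgebraicClosure (ZMod l)) :=
    (Units.coeHom (Matrix (Fin 2) (Fin 2) (AlgebraicClosure (ZMod l)))).comp G.subtype
  obtain ⟨θ, hθ⟩ := exists_lift_hom (π := (l : WittVector l (AlgebraicClosure (ZMod l))))
    (WittVector.constantCoeff : WittVector l (AlgebraicClosure (ZMod l)) →+* _)
    (WittVector.constantCoeff_surjective l) WittVector.ker_constantCoeff inferInstance (by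
      rw [Ne, CharP.cast_eq_zero_iff (AlgebraicClosure (ZMod l)) l, ← Nat.card_eq_fintype_card]
      exact hl)
    ρ (fun g => (Matrix.GeneralLinearGroup.det g.1).ne_zero)
  let Θ : G →* GL (Fin 2) ℂ := (u.mapMatrix.toMonoidHom.comp θ).toHomUnits
  refine ⟨Θ, fun g => ?_⟩
  have hval : (Θ g : Matrix (Fin 2) (Fin 2) ℂ) = (θ g).map u := rfl
  have hfinite : ((θ g).map u) ^ Fintype.card G = 1 := by
    rw [← hval, ← Units.val_pow_eq_pow_val, ← map_pow, pow_card_eq_one, map_one, Units.val_one]
  obtain ⟨htr, hdet⟩ := isIntegral_trace_det Fintype.card_pos hfinite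
  have e1 : ((θ g).map u).trace = u (θ g).trace :=
    (AddMonoidHom.map_trace u.toAddMonoidHom _).symm
  have e2 : ((θ g).map u).det = u (θ g).det := (RingHom.map_det u _).symm
  refine ⟨⟨_, htr⟩, ⟨_, hdet⟩, (congrArg Matrix.trace hval).symm,
    (congrArg Matrix.det hval).symm, ?_, ?_⟩
  · rw [hred _ _ e1, show (g.1 : Matrix (Fin 2) (Fin 2) (AlgebraicClosure (ZMod l))) =
      (θ g).map WittVector.constantCoeff from (hθ g).symm]
    exact AddMonoidHom.map_trace (WittVector.constantCoeff : _ →+* _).toAddMonoidHom (θ g)
  · rw [hred _ _ e2, show (g.1 : Matrix (Fin 2) (Fin 2) (AlgebraicClosure (ZMod l))) =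
      (θ g).map WittVector.constantCoeff from (hθ g).symm]
    exact RingHom.map_det WittVector.constantCoeff _

end Fermat.DS

end
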